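/-
Programme T1B (S44), leaf L5 (helper64, asked by helper66): side facts for the final files.

* `charP_residueField_padicPlace p`, `isAlgClosed_residueField_padicPlace p` : the residue field of
  `padicPlace p` is algebraically closed of characteristic `p`;
* numerics for the level `N = 4 * m * p` (`5 ≤ p` prime, `p ∤ m`): `two_dvd_level`, `four_dvd_four_mul`,
  `not_dvd_four_mul`, `ne_two_of_five_le`, `level_eq`, `not_sq_dvd_level`.
-/
import Mathlib
import Fermat.Agent.ES.KRON.KronInst10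
import Fermat.Agent.T1.LocModel46.Basic

set_option autoImplicit false

namespace Fermat.Agent.T1B.Leaf64

/-- The residue field of `padicPlace p` has characteristic `p`. -/
theorem charP_residueField_padicPlace (p : ℕ) [Fact p.Prime] :
    CharP (IsLocalRing.ResidueField ↥(padicPlace p)) p :=
  Fermat.Agent.ES.KRON.KronInst10.charP_residueField (padicPlace p) Fact.out
    (Fermat.Agent.T1.LocModel46.liesOverPrime p)

/-- The residue field of `padicPlace p` is algebraically closed. -/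
theorem isAlgClosed_residueField_padicPlace (p : ℕ) [Fact p.Prime] :
    IsAlgClosed (IsLocalRing.ResidueField ↥(padicPlace p)) :=
  Fermat.Agent.ES.KRON.KronInst10.isAlgClosed_residueField (padicPlace p)

/-! ### numerics of the level `4 * m * p` -/

theorem two_dvd_level (m p : ℕ) : 2 ∣ 4 * m * p := ⟨2 * m * p, by ring⟩

theorem four_dvd_level (m p : ℕ) : 4 ∣ 4 * m * p := ⟨m * p, by ring⟩

theorem four_dvd_four_mul (m : ℕ) : 4 ∣ 4 * m := ⟨m, rfl⟩

theorem ne_two_of_five_le {p : ℕ} (h5 : 5 ≤ p) : p ≠ 2 := by omega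

theorem ne_three_of_five_le {p : ℕ} (h5 : 5 ≤ p) : p ≠ 3 := by omega

/-- `p ∤ 4 m` for a prime `p ≥ 5` not dividing `m`. -/
theorem not_dvd_four_mul {m p : ℕ} (hp : p.Prime) (h5 : 5 ≤ p) (hm : ¬ p ∣ m) : ¬ p ∣ 4 * m := by
  intro h
  rcases (Nat.Prime.dvd_mul hp).mp h with h4 | h4
  · have : p ≤ 4 := Nat.le_of_dvd (by norm_num) h4
    omega
  · exact hm h4

/-- `p ∤ 4 m` in coprime form. -/
theorem coprime_four_mul {m p : ℕ} (hp : p.Prime) (h5 : 5 ≤ p) (hm : ¬ p ∣ m) :
    Nat.Coprime p (4 * m) :=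
  (Nat.Prime.coprime_iff_not_dvd hp).mpr (not_dvd_four_mul hp h5 hm)

theorem level_eq (m p : ℕ) : 4 * m * p = (4 * m) * p := rfl

theorem dvd_level (m p : ℕ) : p ∣ 4 * m * p := ⟨4 * m, by ring⟩

/-- `p² ∤ 4 m p`. -/
theorem not_sq_dvd_level {m p : ℕ} (hp : p.Prime) (h5 : 5 ≤ p) (hm : ¬ p ∣ m) :
    ¬ p ^ 2 ∣ 4 * m * p := by
  intro h
  rw [pow_two] at h
  exact not_dvd_four_mul hp h5 hm (Nat.dvd_of_mul_dvd_mul_right hp.pos h)

theorem level_ne_zero {m p : ℕ} (hm0 : m ≠ 0) (hp : p.Prime) : 4 * m * p ≠ 0 :=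
  Nat.mul_ne_zero (Nat.mul_ne_zero (by norm_num) hm0) hp.ne_zero

end Fermat.Agent.T1B.Leaf64
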